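import Fermat.Agent.QuadraticHauptsatz.LocalGlobal
import Fermat.Agent.HasseInvariant.Existence

/-!
# The Witt group of a number field

In a completion eight squares and every Pfister form with three slots are hyperbolic, and over `ℝ`
a class is its signature, so by the weak theorem of Hasse and Minkowski the signatures decide
torsion and the high powers of the fundamental ideal.
-/

set_option autoImplicit false
set_option linter.style.haveILetI false

noncomputable section

universe u

open NumberField IsDedekindDomain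
open Fermat.Agent.WittRat Fermat.Agent.QuadraticHauptsatz Fermat.Agent.MilnorKRat
open Fermat.Agent.MilnorConjectureRat

namespace Fermat.Agent.WittNumberField

/-! ### The reals -/

/-- The ordering of `ℝ`. -/
def realSign : FieldSign ℝ where
  sign :=
    { toFun := fun a => if 0 < (a : ℝ) then 1 else -1
      map_one' := by simp
      map_mul' := fun a b => by
        rcases lt_or_gt_of_ne a.ne_zero with ha | ha <;>
          rcases lt_or_gt_of_ne b.ne_zero with hb | hb <;>
            simp [mul_pos_iff, ha, hb, not_lt.2 ha.le, not_lt.2 hb.le] }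
  sign_neg_one := by simp
  sign_add a b c h := by
    simp only [MonoidHom.coe_mk, OneHom.coe_mk, ← h]
    rcases lt_or_gt_of_ne a.ne_zero with ha | ha <;>
      rcases lt_or_gt_of_ne b.ne_zero with hb | hb
    · simp [not_lt.2 ha.le, not_lt.2 hb.le, not_lt.2 (add_neg ha hb).le]
    · simp [not_lt.2 ha.le, hb]
    · simp [ha, not_lt.2 hb.le]
    · simp [ha, hb, add_pos ha hb]

/-- The signature of a class over `ℝ`. -/
def sigR : W ℝ →+ ℤ := signatureAt realSign

theorem sigR_wittClass (a : ℝˣ) : sigR (wittClass ℝ a) = if 0 < (a : ℝ) then 1 else -1 := by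
  rw [sigR, signatureAt_wittClass]
  show (((if 0 < (a : ℝ) then (1 : ℤˣ) else -1) : ℤˣ) : ℤ) = _
  split_ifs <;> simp

/-- **A class over `ℝ` is its signature.** -/
theorem eq_sigR_zsmul (z : W ℝ) : z = sigR z • wittClass ℝ 1 :=
  DFunLike.congr_fun (WittRat.hom_ext (f := AddMonoidHom.id (W ℝ))
    (g := ((zmultiplesHom (W ℝ)) (wittClass ℝ 1)).comp sigR) fun a => by
      rw [AddMonoidHom.id_apply, AddMonoidHom.comp_apply, zmultiplesHom_apply, sigR_wittClass,
        FA.WeakHasseMinkowski.wittClass_real a]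
      split_ifs with h
      · rw [one_zsmul]
      · rw [neg_one_zsmul, ← (wittClass ℝ).apply_neg]) z

theorem sigR_scale (a : ℝˣ) (z : W ℝ) :
    sigR (scale a z) = (if 0 < (a : ℝ) then 1 else -1) * sigR z :=
  DFunLike.congr_fun (WittRat.hom_ext (f := sigR.comp (scale a))
    (g := (AddMonoidHom.mulLeft (if 0 < (a : ℝ) then (1 : ℤ) else -1)).comp sigR) fun b => by
      simp only [AddMonoidHom.comp_apply, scale_wittClass, AddMonoidHom.coe_mulLeft, sigR_wittClass]
      rcases lt_or_gt_of_ne a.ne_zero with ha | ha <;>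
        rcases lt_or_gt_of_ne b.ne_zero with hb | hb <;>
          simp [mul_pos_iff, ha, hb, not_lt.2 ha.le, not_lt.2 hb.le]) z

theorem sigR_pfisterClass : ∀ l : List ℝˣ,
    sigR (pfisterClass l) = if ∀ a ∈ l, 0 < (a : ℝ) then 2 ^ l.length else 0
  | [] => by simp [pfisterClass, sigR_wittClass]
  | a :: l => by
    rw [pfisterClass, map_add, sigR_scale, sigR_pfisterClass l]
    simp only [List.forall_mem_cons, List.length_cons, pow_succ]
    by_cases h' : ∀ b ∈ l, 0 < (b : ℝ)
    · rw [if_pos h']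
      by_cases h : 0 < (a : ℝ)
      · rw [if_pos h, if_pos ⟨h, h'⟩]
        ring
      · rw [if_neg h, if_neg fun e => h e.1]
        ring
    · rw [if_neg h', if_neg (show ¬(0 < (a : ℝ) ∧ ∀ b ∈ l, 0 < (b : ℝ)) from fun e => h' e.2)]
      ring

/-! ### Number fields -/

variable {K : Type u} [Field K] [NumberField K]

/-- **The signature at a real embedding.** -/
def sgn (φ : K →+* ℝ) : W K →+ ℤ := sigR.comp (mapW φ)

omit [NumberField K] in
theorem sgn_wittClass (φ : K →+* ℝ) (a : Kˣ) :
    sgn φ (wittClass K a) = if 0 < φ (a : K) then 1 else -1 := by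
  rw [sgn, AddMonoidHom.comp_apply, mapW_wittClass, sigR_wittClass]
  rfl

omit [NumberField K] in
theorem sgn_pfisterClass (φ : K →+* ℝ) (l : List Kˣ) :
    sgn φ (pfisterClass l) = if ∀ a ∈ l, 0 < φ (a : K) then 2 ^ l.length else 0 := by
  rw [sgn, AddMonoidHom.comp_apply, mapW_pfisterClass, sigR_pfisterClass, List.length_map]
  simp only [List.forall_mem_map, coe_mapUnits]

/-- Three slots are too many in a completion. -/
theorem mapW_pfisterClass_completion (P : HeightOneSpectrum (𝓞 K)) {l : List Kˣ}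
    (hl : 3 ≤ l.length) : mapW (algebraMap K (P.adicCompletion K)) (pfisterClass l) = 0 := by
  refine mapW_pfisterClass_eq_zero _ l fun h => ?_
  have h5 : 5 ≤ Fintype.card (Fin (2 ^ l.length)) := by
    rw [Fintype.card_fin]
    exact le_trans (by norm_num) (Nat.pow_le_pow_right two_pos hl)
  obtain ⟨x, hx0, hx⟩ := Fermat.Agent.MeyerNF.isotropic_completion h5
    (fun i => (pfb l i : K)) P
  exact hx0 (h x hx)

theorem eq_zero_of_completions {z : W K}
    (hfin : ∀ P : HeightOneSpectrum (𝓞 K), mapW (algebraMap K (P.adicCompletion K)) z = 0)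
    (hsgn : ∀ φ : K →+* ℝ, sgn φ z = 0) : z = 0 :=
  FA.WeakHasseMinkowski.eq_zero_of_local hfin fun φ => by
    rw [eq_sigR_zsmul (mapW φ z), show sigR (mapW φ z) = 0 from hsgn φ, zero_zsmul]

/-- Eight times anything vanishes in a completion. -/
theorem eight_nsmul_completion (P : HeightOneSpectrum (𝓞 K)) (z : W K) :
    mapW (algebraMap K (P.adicCompletion K)) (8 • z) = 0 := by
  rw [map_nsmul]
  refine nsmul_eq_zero_of_one ?_ _
  have h := mapW_pfisterClass_completion P (l := [1, 1, 1]) le_rfl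
  simp only [pfisterClass, scale_one, map_add, mapW_wittClass, map_one] at h
  rw [← h]
  abel

/-- **Torsion in the Witt group.** -/
theorem eight_nsmul_eq_zero_iff (z : W K) : 8 • z = 0 ↔ ∀ φ : K →+* ℝ, sgn φ z = 0 := by
  refine ⟨fun h φ => ?_, fun h => eq_zero_of_completions (eight_nsmul_completion · z)
    fun φ => by rw [map_nsmul, h φ, nsmul_zero]⟩
  have := congrArg (sgn φ) h
  rw [map_nsmul, map_zero] at this
  simpa using this

omit [NumberField K] in
theorem sgn_eq_zero_of_torsion {z : W K} {n : ℕ} (hn : n ≠ 0) (h : n • z = 0) (φ : K →+* ℝ) :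
    sgn φ z = 0 := by
  have := congrArg (sgn φ) h
  rw [map_nsmul, map_zero] at this
  simpa [hn] using this

theorem mapW_fundamentalPower {n : ℕ} (hn : 3 ≤ n) {z : W K} (hz : z ∈ fundamentalPower K n)
    (P : HeightOneSpectrum (𝓞 K)) : mapW (algebraMap K (P.adicCompletion K)) z = 0 := by
  induction hz using AddSubgroup.closure_induction with
  | mem x hx =>
    obtain ⟨v, rfl⟩ := hx
    exact mapW_pfisterClass_completion P (by simpa using hn)
  | zero => simp
  | add x y _ _ hx hy => rw [map_add, hx, hy, add_zero]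
  | neg x _ hx => rw [map_neg, hx, neg_zero]

/-- **The signatures are injective on the high powers of the fundamental ideal.** -/
theorem eq_zero_of_fundamentalPower {n : ℕ} (hn : 3 ≤ n) {z : W K}
    (hz : z ∈ fundamentalPower K n) (h : ∀ φ : K →+* ℝ, sgn φ z = 0) : z = 0 :=
  eq_zero_of_completions (mapW_fundamentalPower hn hz) h

omit [NumberField K] in
theorem two_pow_dvd_sgn {n : ℕ} {z : W K} (hz : z ∈ fundamentalPower K n) (φ : K →+* ℝ) :
    (2 : ℤ) ^ n ∣ sgn φ z := by
  induction hz using AddSubgroup.closure_induction with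
  | mem x hx =>
    obtain ⟨v, rfl⟩ := hx
    rw [sgn_pfisterClass, List.length_ofFn]
    split_ifs <;> simp
  | zero => simp
  | add x y _ _ hx hy => rw [map_add]; exact dvd_add hx hy
  | neg x _ hx => rw [map_neg]; exact hx.neg_right

/-- A Pfister form positive at one embedding only. -/
theorem exists_delta {n : ℕ} (hn : 1 ≤ n) (ψ : K →+* ℝ) :
    ∃ z ∈ fundamentalPower K n, ∀ φ : K →+* ℝ,
      (φ = ψ → sgn φ z = 2 ^ n) ∧ (φ ≠ ψ → sgn φ z = 0) := by
  obtain ⟨a, ha⟩ := HasseInvariant.exists_signs fun φ : K →+* ℝ => φ ≠ ψ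
  obtain ⟨m, rfl⟩ : ∃ m, n = m + 1 := ⟨n - 1, by omega⟩
  refine ⟨pfisterClass (List.ofFn (Fin.cons a fun _ => 1 : Fin (m + 1) → Kˣ)),
    AddSubgroup.subset_closure ⟨_, rfl⟩, fun φ => ?_⟩
  have hφ : φ (a : K) ≠ 0 := (map_ne_zero φ).2 a.ne_zero
  have hpos : (∀ b ∈ List.ofFn (Fin.cons a fun _ => 1 : Fin (m + 1) → Kˣ), 0 < φ (b : K)) ↔
      φ = ψ := by
    refine ⟨fun h => by_contra fun hne => ?_, fun h b hb => ?_⟩
    · exact absurd ((ha φ).2 hne) (not_lt.2 (h a (List.mem_ofFn.2 ⟨0, by simp⟩)).le)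
    · obtain ⟨i, rfl⟩ := List.mem_ofFn.1 hb
      cases i using Fin.cases with
      | zero =>
        rw [Fin.cons_zero]
        exact lt_of_le_of_ne (not_lt.1 fun e => (ha φ).1 e h) hφ.symm
      | succ i => simp
  rw [sgn_pfisterClass, List.length_ofFn]
  exact ⟨fun h => if_pos (hpos.2 h), fun h => if_neg (mt hpos.1 h)⟩

/-- **All multiples of `2 ^ n` occur.** -/
theorem exists_sgn_eq {n : ℕ} (hn : 1 ≤ n) (k : (K →+* ℝ) → ℤ) :
    ∃ z ∈ fundamentalPower K n, ∀ φ : K →+* ℝ, sgn φ z = 2 ^ n * k φ := by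
  classical
  choose e he hval using exists_delta (K := K) hn
  refine ⟨∑ ψ, k ψ • e ψ, AddSubgroup.sum_mem _ fun ψ _ => AddSubgroup.zsmul_mem _ (he ψ) _,
    fun φ => ?_⟩
  rw [map_sum, Finset.sum_eq_single φ (fun ψ _ hne => by
    rw [map_zsmul, (hval ψ φ).2 hne.symm, zsmul_zero]) fun h => absurd (Finset.mem_univ φ) h,
    map_zsmul, (hval φ φ).1 rfl, smul_eq_mul, mul_comm]

omit [NumberField K] in
/-- All signatures have the parity of the rank. -/
theorem sgn_sub_even (φ ψ : K →+* ℝ) (z : W K) : Even (sgn φ z - sgn ψ z) := by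
  obtain ⟨m, w, rfl⟩ := exists_cls z
  rw [cls, map_sum, map_sum, ← Finset.sum_sub_distrib]
  refine Finset.even_sum _ fun i _ => ?_
  simp only [sgn_wittClass]
  split_ifs <;> decide

theorem exists_sgn_eq_of_parity {k : (K →+* ℝ) → ℤ} (hk : ∀ φ ψ, Even (k φ - k ψ)) :
    ∃ z : W K, ∀ φ, sgn φ z = k φ := by
  classical
  by_cases hne : Nonempty (K →+* ℝ)
  · obtain ⟨ψ⟩ := hne
    choose j hj using fun φ => hk φ ψ
    obtain ⟨z, -, hz⟩ := exists_sgn_eq (K := K) le_rfl j
    refine ⟨k ψ • wittClass K 1 + z, fun φ => ?_⟩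
    rw [map_add, map_zsmul, hz φ, sgn_wittClass, if_pos (by simp), smul_eq_mul, mul_one, pow_one]
    have := hj φ
    omega
  · exact ⟨0, fun φ => absurd ⟨φ⟩ hne⟩

end Fermat.Agent.WittNumberField

end
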