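import Fermat.Agent.WittNumberField.Main

/-!
# The square of the fundamental ideal modulo its cube

In a completion a two-fold Pfister class depends only on one symbol, so it is `0` or the one
anisotropic class, of order two.  Hence modulo the cube the symbols of the two-fold Pfister forms
add, and the existence of quaternion algebras with prescribed ramification makes every element one
of them.
-/

set_option autoImplicit false
set_option linter.style.haveILetI false

noncomputable section

universe u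

open NumberField IsDedekindDomain
open Fermat.Agent.WittRat Fermat.Agent.MilnorKRat Fermat.Agent.MilnorConjectureRat
open Fermat.Agent.HasseInvariant
open Fermat.Agent.QuadraticHauptsatz (mapW mapUnits coe_mapUnits mapUnits_neg mapW_pfisterClass)
open scoped Classical

namespace Fermat.Agent.WittNumberField

/-! ### One completion -/

section general

variable {F : Type*} [Field F]

/-- The class of `⟨1, a, b, a b⟩`. -/
def pf (a b : Fˣ) : W F := pfisterClass [a, b]

theorem pf_eq_cls (a b : Fˣ) : pf a b = cls ![1, a, b, a * b] := by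
  simp [pf, pfisterClass, cls, Fin.sum_univ_four]
  abel

theorem pf_trivial : pf (-1 : Fˣ) 1 = 0 := by
  simp [pf, pfisterClass, scale_neg, scale_one]

theorem two_nsmul_pf (a b : Fˣ) : 2 • pf a b = pfisterClass [1, a, b] := by
  rw [show pfisterClass [1, a, b] = pf a b + scale 1 (pf a b) from rfl, scale_one, two_nsmul]

variable (hF : LocalLike F)
include hF

theorem hasse_four (a b : Fˣ) :
    HasseInvariant.hasse ![1, a, b, a * b] = sym (-a) (-b) + sym (-1 : Fˣ) (-1) := by
  have h := hasse_pure hF 1 (-a) (-b)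
  simp only [one_mul, neg_neg, neg_mul_neg] at h
  show HasseInvariant.hasse (Fin.cons 1 ![a, b, a * b]) = _
  rw [hasse_cons, h, Finset.sum_eq_zero fun j _ => by rw [sym_comm, sym_one_right], add_zero]

/-- **Two-fold Pfister classes are determined by their symbols.** -/
theorem pf_eq_iff (a b a' b' : Fˣ) : pf a b = pf a' b' ↔ sym (-a) (-b) = sym (-a') (-b') := by
  rw [pf_eq_cls, pf_eq_cls, ← equivalent_iff_cls hF.two_ne_zero]
  have hd : ∀ x y : Fˣ, sq' (∏ i, ![1, x, y, x * y] i) = sq' 1 := fun x y => by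
    rw [sq'_eq_iff]
    refine ⟨x * y, ?_⟩
    simp [Fin.prod_univ_four, pow_two]
  have hi : ∀ x y : Fˣ, inv hF ![1, x, y, x * y] = ⟨4, sq' 1, sym (-x) (-y) + sym (-1) (-1)⟩ :=
    fun x y => by
      rw [inv_eq, hd, hasse_four hF]
      rfl
  constructor
  · intro h
    have := congrArg Inv.hw (inv_eq_of_equivalent hF h)
    rw [hi, hi] at this
    exact add_right_cancel this
  · intro h
    exact equivalent_of_inv hF _ _ ((hi a b).trans
      ((congrArg (fun t => (⟨4, sq' 1, t + sym (-1) (-1)⟩ : Inv hF)) h).trans (hi a' b').symm))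

theorem pf_eq_zero_iff (a b : Fˣ) : pf a b = 0 ↔ sym (-a) (-b) = 0 := by
  rw [← pf_trivial, pf_eq_iff hF, neg_neg, sym_comm (1 : Fˣ), sym_one_right]

end general

/-! ### Number fields -/

variable {K : Type u} [Field K] [NumberField K]

/-- The ramification symbol at a prime. -/
abbrev ramP (P : HeightOneSpectrum (𝓞 K)) (a b : Kˣ) : ZMod 2 := symP P (-a) (-b)

/-- The ramification symbol at a real embedding. -/
abbrev ramR (φ : K →+* ℝ) (a b : Kˣ) : ZMod 2 := sym (mapUnits φ (-a)) (mapUnits φ (-b))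

omit [NumberField K] in
theorem mapW_pf {G : Type*} [Field G] (f : K →+* G) (a b : Kˣ) :
    mapW f (pf a b) = pf (mapUnits f a) (mapUnits f b) :=
  mapW_pfisterClass f [a, b]

theorem mapW_pf_eq_zero_iff (P : HeightOneSpectrum (𝓞 K)) (a b : Kˣ) :
    mapW (algebraMap K (P.adicCompletion K)) (pf a b) = 0 ↔ ramP P a b = 0 := by
  rw [mapW_pf, pf_eq_zero_iff (localLike_completion P), ramP, symP, mapUnits_neg, mapUnits_neg]

theorem mapW_pf_eq (P : HeightOneSpectrum (𝓞 K)) {a b a' b' : Kˣ}
    (h : ramP P a b = ramP P a' b') :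
    mapW (algebraMap K (P.adicCompletion K)) (pf a b) =
      mapW (algebraMap K (P.adicCompletion K)) (pf a' b') := by
  rw [mapW_pf, mapW_pf, pf_eq_iff (localLike_completion P)]
  simpa only [ramP, symP, mapUnits_neg] using h

omit [NumberField K] in
theorem ramR_eq (φ : K →+* ℝ) (a b : Kˣ) :
    ramR φ a b = if 0 < φ (a : K) ∧ 0 < φ (b : K) then 1 else 0 := by
  rw [ramR, sym_real]
  simp

omit [NumberField K] in
theorem sgn_pf (φ : K →+* ℝ) (a b : Kˣ) : sgn φ (pf a b) = 4 * ((ramR φ a b).val : ℤ) := by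
  rw [pf, sgn_pfisterClass, ramR_eq]
  simp only [List.forall_mem_cons, List.not_mem_nil, IsEmpty.forall_iff, implies_true, and_true,
    List.length_cons, List.length_nil]
  split_ifs <;> norm_num [ZMod.val_one]

/-- Locally trivial with signatures divisible by eight is in the cube. -/
theorem mem_cube {z : W K}
    (hfin : ∀ P : HeightOneSpectrum (𝓞 K), mapW (algebraMap K (P.adicCompletion K)) z = 0)
    (hsgn : ∀ φ : K →+* ℝ, (8 : ℤ) ∣ sgn φ z) : z ∈ fundamentalPower K 3 := by
  choose k hk using hsgn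
  obtain ⟨y, hy, hs⟩ := exists_sgn_eq (K := K) (show 1 ≤ 3 by norm_num) k
  have h : z - y = 0 := eq_zero_of_completions
    (fun P => by rw [map_sub, hfin P, mapW_fundamentalPower le_rfl hy P, sub_zero])
    fun φ => by rw [map_sub, hs φ, hk φ]; norm_num
  rwa [sub_eq_zero.1 h]

/-- Symbols add modulo the cube. -/
theorem pf_add {a b a' b' a'' b'' : Kˣ} (hP : ∀ P, ramP P a'' b'' = ramP P a b + ramP P a' b')
    (hR : ∀ φ : K →+* ℝ, ramR φ a'' b'' = ramR φ a b + ramR φ a' b') :
    pf a b + pf a' b' - pf a'' b'' ∈ fundamentalPower K 3 := by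
  refine mem_cube (fun P => ?_) fun φ => ?_
  · rw [map_sub, map_add, sub_eq_zero]
    have h2 : ∀ x y : Kˣ, mapW (algebraMap K (P.adicCompletion K)) (pf x y) +
        mapW (algebraMap K (P.adicCompletion K)) (pf x y) = 0 := fun x y => by
      rw [← two_nsmul, ← map_nsmul, two_nsmul_pf]
      exact mapW_pfisterClass_completion P le_rfl
    by_cases h : ramP P a b = 0
    · rw [(mapW_pf_eq_zero_iff P a b).2 h, zero_add]
      exact mapW_pf_eq P (by rw [hP P, h, zero_add])
    by_cases h' : ramP P a' b' = 0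
    · rw [(mapW_pf_eq_zero_iff P a' b').2 h', add_zero]
      exact mapW_pf_eq P (by rw [hP P, h', add_zero])
    have he : ramP P a b = ramP P a' b' := by
      generalize ramP P a b = s, ramP P a' b' = t at h h' ⊢
      revert s t
      decide
    rw [← mapW_pf_eq P he, h2, eq_comm, mapW_pf_eq_zero_iff, hP P, ← he]
    generalize ramP P a b = s
    revert s
    decide
  · rw [map_sub, map_add, sgn_pf, sgn_pf, sgn_pf, hR φ]
    generalize ramR φ a b = s, ramR φ a' b' = t
    revert s t
    decide

/-- Every even set of places is a ramification. -/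
theorem exists_ram (r : HeightOneSpectrum (𝓞 K) → ZMod 2) (s : (K →+* ℝ) → ZMod 2)
    (hr : (Function.support r).Finite) (hsum : ∑ᶠ P, r P + ∑ φ, s φ = 0) :
    ∃ a b : Kˣ, (∀ P, ramP P a b = r P) ∧ ∀ φ, ramR φ a b = s φ := by
  have two : ∀ t : ZMod 2, t ≠ 0 → t = 1 := by decide
  set R := Finset.univ.filter fun φ : K →+* ℝ => s φ ≠ 0 with hRdef
  have h1 : ∑ᶠ P, r P = (hr.toFinset.card : ZMod 2) := by
    rw [finsum_eq_sum_of_support_subset (s := hr.toFinset) r (by simp),
      Finset.sum_congr rfl (g := fun _ => (1 : ZMod 2)) fun P hP => two _ (by simpa using hP),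
      Finset.sum_const, nsmul_one]
  have h2 : ∑ φ, s φ = (R.card : ZMod 2) := by
    rw [hRdef, ← Finset.sum_boole]
    refine Finset.sum_congr rfl fun φ _ => ?_
    split_ifs with h
    · exact two _ h
    · exact not_not.1 h
  have heven : Even (hr.toFinset.card + R.card) := by
    rw [← ZMod.natCast_eq_zero_iff_even, Nat.cast_add, ← h1, ← h2, hsum]
  obtain ⟨a, b, ha, hb, hab, habR⟩ := FA.QuaternionNF.exists_prescribed hr.toFinset R heven
  refine ⟨-Units.mk0 a ha, -Units.mk0 b hb, fun P => ?_, fun φ => ?_⟩ <;>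
    simp only [ramP, ramR, symP, neg_neg, sym]
  · have h := hab P
    rw [Set.Finite.mem_toFinset, Function.mem_support] at h
    split_ifs with hc
    · exact (not_not.1 fun hne => h.2 hne hc).symm
    · exact (two _ (h.1 hc)).symm
  · have h := habR φ
    simp only [hRdef, Finset.mem_filter, Finset.mem_univ, true_and] at h
    split_ifs with hc
    · exact (not_not.1 fun hne => h.2 hne hc).symm
    · exact (two _ (h.1 hc)).symm

/-- The sum of two symbols is a symbol modulo the cube. -/
theorem exists_pf_add (a b a' b' : Kˣ) :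
    ∃ a'' b'' : Kˣ, (∀ P, ramP P a'' b'' = ramP P a b + ramP P a' b') ∧
      (∀ φ : K →+* ℝ, ramR φ a'' b'' = ramR φ a b + ramR φ a' b') ∧
      pf a b + pf a' b' - pf a'' b'' ∈ fundamentalPower K 3 := by
  obtain ⟨a'', b'', hP, hR⟩ := exists_ram (fun P => ramP P a b + ramP P a' b')
    (fun φ => ramR φ a b + ramR φ a' b')
    (((symP_support _ _).union (symP_support _ _)).subset (Function.support_add _ _))
    (by
      rw [finsum_add_distrib (symP_support _ _) (symP_support _ _), Finset.sum_add_distrib]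
      linear_combination sum_symP (-a) (-b) + sum_symP (-a') (-b'))
  exact ⟨a'', b'', hP, hR, pf_add hP hR⟩

/-- **Every element of the square is one symbol modulo the cube.** -/
theorem exists_pf {z : W K} (hz : z ∈ fundamentalPower K 2) :
    ∃ a b : Kˣ, z - pf a b ∈ fundamentalPower K 3 := by
  induction hz using AddSubgroup.closure_induction with
  | mem x hx =>
    obtain ⟨v, rfl⟩ := hx
    exact ⟨v 0, v 1, by simp [pf, List.ofFn_succ]⟩
  | zero => exact ⟨-1, 1, by rw [pf_trivial]; simp⟩
  | add x y _ _ hx hy =>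
    obtain ⟨a, b, hx⟩ := hx
    obtain ⟨a', b', hy⟩ := hy
    obtain ⟨a'', b'', hP, hR, hadd⟩ := exists_pf_add a b a' b'
    refine ⟨a'', b'', ?_⟩
    rw [show x + y - pf a'' b'' =
      (x - pf a b) + (y - pf a' b') + (pf a b + pf a' b' - pf a'' b'') by abel]
    exact add_mem (add_mem hx hy) hadd
  | neg x _ hx =>
    obtain ⟨a, b, hx⟩ := hx
    refine ⟨a, b, ?_⟩
    have h3 : 2 • pf a b ∈ fundamentalPower K 3 := by
      rw [two_nsmul_pf]
      exact AddSubgroup.subset_closure ⟨![1, a, b], by simp [List.ofFn_succ]⟩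
    rw [show -x - pf a b = -(x - pf a b) - 2 • pf a b by rw [two_nsmul]; abel]
    exact sub_mem (neg_mem hx) h3

/-- **The invariant at the places.** -/
def eTwoVal (z : W K) : (HeightOneSpectrum (𝓞 K) → ZMod 2) × ((K →+* ℝ) → ZMod 2) :=
  (fun P => if mapW (algebraMap K (P.adicCompletion K)) z = 0 then 0 else 1,
    fun φ => ((sgn φ z / 4 : ℤ) : ZMod 2))

theorem eTwoVal_eq {z : W K} {a b : Kˣ} (h : z - pf a b ∈ fundamentalPower K 3) :
    eTwoVal z = (fun P => ramP P a b, fun φ => ramR φ a b) := by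
  refine Prod.ext (funext fun P => ?_) (funext fun φ => ?_)
  · have he : mapW (algebraMap K (P.adicCompletion K)) z =
        mapW (algebraMap K (P.adicCompletion K)) (pf a b) := by
      have := mapW_fundamentalPower le_rfl h P
      rwa [map_sub, sub_eq_zero] at this
    have two : ∀ t : ZMod 2, t ≠ 0 → t = 1 := by decide
    simp only [eTwoVal, he, mapW_pf_eq_zero_iff]
    split_ifs with hc
    · exact hc.symm
    · exact (two _ hc).symm
  · obtain ⟨k, hk⟩ := two_pow_dvd_sgn h φ
    rw [map_sub, sgn_pf, sub_eq_iff_eq_add] at hk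
    simp only [eTwoVal, hk]
    rw [show (2 : ℤ) ^ 3 * k + 4 * ((ramR φ a b).val : ℤ) =
      4 * (2 * k + ((ramR φ a b).val : ℤ)) by ring, Int.mul_ediv_cancel_left _ (by norm_num)]
    push_cast
    rw [show (2 : ZMod 2) = 0 from rfl, zero_mul, zero_add, ZMod.natCast_val, ZMod.cast_id]

/-- The invariant as a homomorphism. -/
def eTwo : fundamentalPower K 2 →+ (HeightOneSpectrum (𝓞 K) → ZMod 2) × ((K →+* ℝ) → ZMod 2) :=
  AddMonoidHom.mk' (fun z => eTwoVal (z : W K)) fun x y => by
    obtain ⟨a, b, hx⟩ := exists_pf x.2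
    obtain ⟨a', b', hy⟩ := exists_pf y.2
    obtain ⟨a'', b'', hP, hR, hadd⟩ := exists_pf_add a b a' b'
    have hxy : ((x + y : fundamentalPower K 2) : W K) - pf a'' b'' ∈ fundamentalPower K 3 := by
      rw [AddSubgroup.coe_add, show (x : W K) + y - pf a'' b'' =
        ((x : W K) - pf a b) + ((y : W K) - pf a' b') + (pf a b + pf a' b' - pf a'' b'') by abel]
      exact add_mem (add_mem hx hy) hadd
    rw [eTwoVal_eq hxy, eTwoVal_eq hx, eTwoVal_eq hy]
    exact Prod.ext (funext hP) (funext hR)

theorem mem_cube_of_ram {a b : Kˣ} (hP : ∀ P, ramP P a b = 0) (hR : ∀ φ, ramR φ a b = 0) :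
    pf a b ∈ fundamentalPower K 3 :=
  mem_cube (fun P => (mapW_pf_eq_zero_iff P a b).2 (hP P)) fun φ => by
    rw [sgn_pf, hR φ]
    simp

/-- **The kernel is the cube.** -/
theorem eTwo_eq_zero_iff (z : fundamentalPower K 2) :
    eTwo z = 0 ↔ (z : W K) ∈ fundamentalPower K 3 := by
  obtain ⟨a, b, hz⟩ := exists_pf z.2
  constructor
  · intro h
    change eTwoVal (z : W K) = 0 at h
    rw [eTwoVal_eq hz] at h
    have hpf := mem_cube_of_ram (congrFun (congrArg Prod.fst h)) (congrFun (congrArg Prod.snd h))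
    simpa using add_mem hz hpf
  · intro h
    show eTwoVal (z : W K) = 0
    refine (eTwoVal_eq (a := -1) (b := 1) (by rw [pf_trivial, sub_zero]; exact h)).trans ?_
    refine Prod.ext (funext fun P => ?_) (funext fun φ => ?_)
    · exact (mapW_pf_eq_zero_iff P _ _).1 (by rw [pf_trivial, map_zero])
    · show ramR φ (-1) 1 = 0
      rw [ramR_eq]
      simp

/-- Congruent classes are equal. -/
theorem pf_congr_iff (a b a' b' : Kˣ) :
    (pf a b - pf a' b' ∈ fundamentalPower K 3 ↔ pf a b = pf a' b') ∧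
      (pf a b = pf a' b' ↔
        (∀ P, ramP P a b = ramP P a' b') ∧ ∀ φ : K →+* ℝ, ramR φ a b = ramR φ a' b') := by
  have h1 : pf a b - pf a' b' ∈ fundamentalPower K 3 →
      (∀ P, ramP P a b = ramP P a' b') ∧ ∀ φ : K →+* ℝ, ramR φ a b = ramR φ a' b' := fun h => by
    have e := (eTwoVal_eq h).symm.trans (eTwoVal_eq (a := a) (b := b) (z := pf a b) (by simp))
    exact ⟨fun P => (congrFun (congrArg Prod.fst e) P).symm,
      fun φ => (congrFun (congrArg Prod.snd e) φ).symm⟩
  have h2 : ((∀ P, ramP P a b = ramP P a' b') ∧ ∀ φ : K →+* ℝ, ramR φ a b = ramR φ a' b') →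
      pf a b = pf a' b' := fun h => sub_eq_zero.1 (eq_zero_of_completions
    (fun P => by rw [map_sub, mapW_pf_eq P (h.1 P), sub_self])
    fun φ => by rw [map_sub, sgn_pf, sgn_pf, h.2 φ, sub_self])
  have h0 : pf a b = pf a' b' → pf a b - pf a' b' ∈ fundamentalPower K 3 := fun h => by simp [h]
  exact ⟨⟨fun h => h2 (h1 h), h0⟩, ⟨fun h => h1 (h0 h), h2⟩⟩

end Fermat.Agent.WittNumberField

end
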